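/-
GATE-Z (S15) / [MOD-beta] leaf (T1), part 2 (helper72): the Tate functions ON THE UNIT CIRCLE and
the bookkeeping of admissibility.

`K` a complete ultrametric normed field, `0 < ‖q‖ < 1`.

* `norm_X_sub_xTerm_le_of_norm_one`, `norm_Y_sub_yTerm_le_of_norm_one` :
  `‖u‖ = 1 ⟹ ‖X q u - u/(1-u)²‖ ≤ ‖q‖`, `‖Y q u - u²/(1-u)³‖ ≤ ‖q‖`;
* `norm_X_of_norm_one`, `norm_Y_of_norm_one` (**(G5)** of T2E): `‖u‖ = 1`, `u ≠ 1` ⟹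
  `‖X q u‖ = (‖1 - u‖²)⁻¹`, `‖Y q u‖ = (‖1 - u‖³)⁻¹` (in particular `1 ≤ ‖X q u‖`);
* `isAdm_iff_not_mem_zpowers` : `IsAdm q u ⟺ u ∉ q^ℤ` (in `Kˣ`);
* `isAdm_of_norm_one`, `isAdm_of_annulus`, `exists_zpow_mul_mem_annulus` (fundamental domain
  `‖q‖ < ‖qⁿ u‖ ≤ 1`).
-/
import Fermat.Agent.GZ.Tate.Conv

set_option autoImplicit false

noncomputable section

namespace Fermat.Agent.GZ.Tate

open Filter Topology

variable {K : Type*} [NormedField K] [IsUltrametricDist K]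

/-! ### the leading terms on the unit circle -/

theorem norm_one_sub_le_one_of_norm_one {u : K} (hu : ‖u‖ = 1) : ‖1 - u‖ ≤ 1 := by
  refine (norm_sub_le_max' 1 u).trans ?_
  rw [norm_one, hu, max_self]

omit [IsUltrametricDist K] in
theorem norm_xTerm_of_norm_one {u : K} (hu : ‖u‖ = 1) : ‖xTerm u‖ = (‖1 - u‖ ^ 2)⁻¹ := by
  unfold xTerm
  rw [norm_div, norm_pow, hu, one_div]

omit [IsUltrametricDist K] in
theorem norm_yTerm_of_norm_one {u : K} (hu : ‖u‖ = 1) : ‖yTerm u‖ = (‖1 - u‖ ^ 3)⁻¹ := by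
  unfold yTerm
  rw [norm_div, norm_pow, norm_pow, hu, one_pow, one_div]

theorem one_le_norm_xTerm_of_norm_one {u : K} (hu : ‖u‖ = 1) (hu1 : u ≠ 1) :
    1 ≤ ‖xTerm u‖ := by
  rw [norm_xTerm_of_norm_one hu]
  have hpos : 0 < ‖1 - u‖ := norm_pos_iff.2 (sub_ne_zero.2 (Ne.symm hu1))
  rw [one_le_inv₀ (pow_pos hpos 2)]
  exact pow_le_one₀ hpos.le (norm_one_sub_le_one_of_norm_one hu)

theorem one_le_norm_yTerm_of_norm_one {u : K} (hu : ‖u‖ = 1) (hu1 : u ≠ 1) :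
    1 ≤ ‖yTerm u‖ := by
  rw [norm_yTerm_of_norm_one hu]
  have hpos : 0 < ‖1 - u‖ := norm_pos_iff.2 (sub_ne_zero.2 (Ne.symm hu1))
  rw [one_le_inv₀ (pow_pos hpos 3)]
  exact pow_le_one₀ hpos.le (norm_one_sub_le_one_of_norm_one hu)

section Complete

variable [CompleteSpace K]

/-- on the unit circle `X q u = u/(1-u)²` up to `‖q‖`. -/
theorem norm_X_sub_xTerm_le_of_norm_one {q u : K} (hq0 : q ≠ 0) (hq1 : ‖q‖ < 1) (hu : ‖u‖ = 1) :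
    ‖X q u - xTerm u‖ ≤ ‖q‖ := by
  have hqpos : 0 < ‖q‖ := norm_pos_iff.2 hq0
  have h := norm_X_sub_xTerm_le hq0 hq1 (u := u) (by rw [hu]; exact hq1)
    (by rw [hu]; exact (one_lt_inv₀ hqpos).2 hq1)
  rwa [hu, mul_one, div_one, max_self] at h

/-- on the unit circle `Y q u = u²/(1-u)³` up to `‖q‖`. -/
theorem norm_Y_sub_yTerm_le_of_norm_one {q u : K} (hq0 : q ≠ 0) (hq1 : ‖q‖ < 1) (hu : ‖u‖ = 1) :
    ‖Y q u - yTerm u‖ ≤ ‖q‖ := by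
  have hqpos : 0 < ‖q‖ := norm_pos_iff.2 hq0
  have h := norm_Y_sub_yTerm_le hq0 hq1 (u := u) (by rw [hu]; exact hq1)
    (by rw [hu]; exact (one_lt_inv₀ hqpos).2 hq1)
  rwa [hu, mul_one, div_one, max_self] at h

omit [CompleteSpace K] in
/-- ultrametric principle: a perturbation of strictly smaller norm does not change the norm. -/
theorem norm_eq_of_norm_sub_lt {a b : K} (h : ‖a - b‖ < ‖b‖) : ‖a‖ = ‖b‖ := by
  have e : a = (a - b) + b := by ring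
  rw [e]
  rw [IsUltrametricDist.norm_add_eq_max_of_norm_ne_norm h.ne]
  exact max_eq_right h.le

/-- **(G5)**: on the unit circle, `u ≠ 1`: `‖X q u‖ = (‖1 - u‖²)⁻¹`. -/
theorem norm_X_of_norm_one {q u : K} (hq0 : q ≠ 0) (hq1 : ‖q‖ < 1) (hu : ‖u‖ = 1) (hu1 : u ≠ 1) :
    ‖X q u‖ = (‖1 - u‖ ^ 2)⁻¹ := by
  rw [← norm_xTerm_of_norm_one hu]
  refine norm_eq_of_norm_sub_lt ?_
  exact (norm_X_sub_xTerm_le_of_norm_one hq0 hq1 hu).trans_lt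
    (hq1.trans_le (one_le_norm_xTerm_of_norm_one hu hu1))

/-- on the unit circle, `u ≠ 1`: `‖Y q u‖ = (‖1 - u‖³)⁻¹`. -/
theorem norm_Y_of_norm_one {q u : K} (hq0 : q ≠ 0) (hq1 : ‖q‖ < 1) (hu : ‖u‖ = 1) (hu1 : u ≠ 1) :
    ‖Y q u‖ = (‖1 - u‖ ^ 3)⁻¹ := by
  rw [← norm_yTerm_of_norm_one hu]
  refine norm_eq_of_norm_sub_lt ?_
  exact (norm_Y_sub_yTerm_le_of_norm_one hq0 hq1 hu).trans_lt
    (hq1.trans_le (one_le_norm_yTerm_of_norm_one hu hu1))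

theorem one_le_norm_X_of_norm_one {q u : K} (hq0 : q ≠ 0) (hq1 : ‖q‖ < 1) (hu : ‖u‖ = 1)
    (hu1 : u ≠ 1) : 1 ≤ ‖X q u‖ := by
  rw [norm_X_of_norm_one hq0 hq1 hu hu1, ← norm_xTerm_of_norm_one hu]
  exact one_le_norm_xTerm_of_norm_one hu hu1

theorem one_le_norm_Y_of_norm_one {q u : K} (hq0 : q ≠ 0) (hq1 : ‖q‖ < 1) (hu : ‖u‖ = 1)
    (hu1 : u ≠ 1) : 1 ≤ ‖Y q u‖ := by
  rw [norm_Y_of_norm_one hq0 hq1 hu hu1, ← norm_yTerm_of_norm_one hu]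
  exact one_le_norm_yTerm_of_norm_one hu hu1

/-- the form of (G5) asked by T2E: `‖w‖ = 1`, `w ≠ 1`, `‖1 - w‖ < 1` ⟹ `1 < ‖X q w‖`. -/
theorem one_lt_norm_X_of_norm_one_sub_lt {q w : K} (hq0 : q ≠ 0) (hq1 : ‖q‖ < 1) (hw : ‖w‖ = 1)
    (hw1 : w ≠ 1) (hlt : ‖1 - w‖ < 1) : 1 < ‖X q w‖ := by
  rw [norm_X_of_norm_one hq0 hq1 hw hw1]
  have hpos : 0 < ‖1 - w‖ := norm_pos_iff.2 (sub_ne_zero.2 (Ne.symm hw1))
  rw [one_lt_inv₀ (pow_pos hpos 2)]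
  exact pow_lt_one₀ hpos.le hlt (by norm_num)

end Complete

/-! ### admissibility -/

omit [IsUltrametricDist K] in
/-- `‖qⁿ u‖ = ‖q‖ⁿ ‖u‖`. -/
theorem norm_zpow_mul (q u : K) (n : ℤ) : ‖q ^ n * u‖ = ‖q‖ ^ n * ‖u‖ := by
  rw [norm_mul, norm_zpow]

omit [IsUltrametricDist K] in
/-- `0 < ‖q‖ < 1`, `‖qⁿ‖ = 1` ⟹ `n = 0`. -/
theorem zpow_norm_eq_one_iff {q : K} (hq0 : q ≠ 0) (hq1 : ‖q‖ < 1) (n : ℤ) :
    ‖q‖ ^ n = 1 ↔ n = 0 := by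
  have hqpos : 0 < ‖q‖ := norm_pos_iff.2 hq0
  constructor
  · intro h
    by_contra hn
    rcases lt_or_gt_of_ne hn with hneg | hpos
    · have : 1 < ‖q‖ ^ n := one_lt_zpow_of_neg₀ hqpos hq1 hneg
      rw [h] at this
      exact lt_irrefl _ this
    · have : ‖q‖ ^ n < 1 := zpow_lt_one₀ hqpos hq1 hpos
      rw [h] at this
      exact lt_irrefl _ this
  · rintro rfl
    exact zpow_zero _

omit [IsUltrametricDist K] in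
/-- a point of the unit circle other than `1` is admissible. -/
theorem isAdm_of_norm_one {q u : K} (hq0 : q ≠ 0) (hq1 : ‖q‖ < 1) (hu : ‖u‖ = 1) (hu1 : u ≠ 1) :
    IsAdm q u := by
  refine ⟨fun h => ?_, fun n h => ?_⟩
  · rw [h, norm_zero] at hu
    exact zero_ne_one hu
  · have hn : ‖q‖ ^ n = 1 := by
      have := congrArg norm h
      rwa [norm_zpow_mul, hu, mul_one, norm_one] at this
    have hn0 := (zpow_norm_eq_one_iff hq0 hq1 n).1 hn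
    subst hn0
    rw [zpow_zero, one_mul] at h
    exact hu1 h

omit [IsUltrametricDist K] in
/-- a point of the open annulus `‖q‖ < ‖u‖ < 1` is admissible. -/
theorem isAdm_of_annulus {q u : K} (hq0 : q ≠ 0) (hu0 : ‖q‖ < ‖u‖) (hu1 : ‖u‖ < 1) :
    IsAdm q u := by
  have hqpos : 0 < ‖q‖ := norm_pos_iff.2 hq0
  have hq1 : ‖q‖ < 1 := hu0.trans hu1
  have hupos : 0 < ‖u‖ := hqpos.trans hu0
  refine ⟨norm_pos_iff.1 hupos, fun n h => ?_⟩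
  have hn : ‖q‖ ^ n * ‖u‖ = 1 := by
    have := congrArg norm h
    rwa [norm_zpow_mul, norm_one] at this
  rcases le_or_gt 0 n with hn0 | hn0
  · -- `‖q‖ⁿ ≤ 1`, so `‖q‖ⁿ ‖u‖ < 1`
    have h1 : ‖q‖ ^ n ≤ 1 := zpow_le_one₀ hqpos hq1.le hn0
    have : ‖q‖ ^ n * ‖u‖ < 1 := by
      calc ‖q‖ ^ n * ‖u‖ ≤ 1 * ‖u‖ := mul_le_mul_of_nonneg_right h1 hupos.le
        _ = ‖u‖ := one_mul _
        _ < 1 := hu1
    rw [hn] at this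
    exact lt_irrefl _ this
  · -- `n ≤ -1`: `‖q‖ⁿ ≥ ‖q‖⁻¹`, so `‖q‖ⁿ ‖u‖ > 1`
    have h1 : ‖q‖⁻¹ ≤ ‖q‖ ^ n := by
      have : ‖q‖ ^ (-1 : ℤ) ≤ ‖q‖ ^ n :=
        zpow_le_zpow_right_of_le_one₀ hqpos hq1.le (by omega)
      simpa using this
    have : 1 < ‖q‖ ^ n * ‖u‖ := by
      calc 1 = ‖q‖⁻¹ * ‖q‖ := (inv_mul_cancel₀ hqpos.ne').symm
        _ < ‖q‖⁻¹ * ‖u‖ := mul_lt_mul_of_pos_left hu0 (inv_pos.2 hqpos)
        _ ≤ ‖q‖ ^ n * ‖u‖ := mul_le_mul_of_nonneg_right h1 hupos.le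
    rw [hn] at this
    exact lt_irrefl _ this

omit [IsUltrametricDist K] in
/-- **fundamental domain**: every `u ≠ 0` has a translate `qⁿ u` with `‖q‖ < ‖qⁿ u‖ ≤ 1`. -/
theorem exists_zpow_mul_mem_annulus {q u : K} (hq0 : q ≠ 0) (hq1 : ‖q‖ < 1) (hu : u ≠ 0) :
    ∃ n : ℤ, ‖q‖ < ‖q ^ n * u‖ ∧ ‖q ^ n * u‖ ≤ 1 := by
  have hqpos : 0 < ‖q‖ := norm_pos_iff.2 hq0
  have hupos : 0 < ‖u‖ := norm_pos_iff.2 hu
  obtain ⟨n, hn1, hn2⟩ := exists_mem_Ioc_zpow hupos ((one_lt_inv₀ hqpos).2 hq1)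
  -- `‖q‖⁻ⁿ < ‖u‖ ≤ ‖q‖⁻ⁿ⁻¹`
  refine ⟨n + 1, ?_, ?_⟩
  · rw [norm_zpow_mul, zpow_add_one₀ hqpos.ne']
    rw [inv_zpow, ← zpow_neg] at hn1
    have hpos : 0 < ‖q‖ ^ n := zpow_pos hqpos n
    have h1 : 1 < ‖q‖ ^ n * ‖u‖ := by
      calc 1 = ‖q‖ ^ n * ‖q‖ ^ (-n) := by rw [← zpow_add₀ hqpos.ne', add_neg_cancel, zpow_zero]
        _ < ‖q‖ ^ n * ‖u‖ := mul_lt_mul_of_pos_left hn1 hpos
    calc ‖q‖ = 1 * ‖q‖ := (one_mul _).symm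
      _ < (‖q‖ ^ n * ‖u‖) * ‖q‖ := mul_lt_mul_of_pos_right h1 hqpos
      _ = ‖q‖ ^ n * ‖q‖ * ‖u‖ := by ring
  · rw [norm_zpow_mul]
    rw [inv_zpow, ← zpow_neg] at hn2
    have hpos : 0 < ‖q‖ ^ (n + 1) := zpow_pos hqpos (n + 1)
    calc ‖q‖ ^ (n + 1) * ‖u‖ ≤ ‖q‖ ^ (n + 1) * ‖q‖ ^ (-(n + 1)) :=
          mul_le_mul_of_nonneg_left hn2 hpos.le
      _ = 1 := by rw [← zpow_add₀ hqpos.ne', add_neg_cancel, zpow_zero]

omit [IsUltrametricDist K] in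
/-- `IsAdm q u ⟺ u ∉ q^ℤ`, in the unit group. -/
theorem isAdm_iff_not_mem_zpowers {q : K} (hq0 : q ≠ 0) (u : Kˣ) :
    IsAdm q (u : K) ↔ u ∉ Subgroup.zpowers (Units.mk0 q hq0) := by
  rw [Subgroup.mem_zpowers_iff]
  constructor
  · rintro ⟨_, h⟩ ⟨k, hk⟩
    apply h (-k)
    have hk' : (q : K) ^ k = (u : K) := by
      have := congrArg (fun x : Kˣ => (x : K)) hk
      simpa [Units.val_zpow_eq_zpow_val] using this
    rw [← hk', ← zpow_add₀ hq0, neg_add_cancel, zpow_zero]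
  · intro h
    refine ⟨u.ne_zero, fun n hn => h ⟨-n, ?_⟩⟩
    apply Units.ext
    rw [Units.val_zpow_eq_zpow_val, Units.val_mk0]
    have : (u : K) = (q ^ n)⁻¹ := eq_inv_of_mul_eq_one_right hn
    rw [this, zpow_neg]

end Fermat.Agent.GZ.Tate
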